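/-
S27lib / Tsig / Transport (helper6).  Block (Tσ) of helper7's short chain.
Transport of the working statements `CountAt K n g` (Iface) and `BelyiCountAt K n g` along ring
isomorphisms of the base field, and along `ULift` (to equalise universes).
Everything rests on helper9's `BR.Transport` (semilinear isomorphisms of function fields).
-/
import Mathlib
import Fermat.Agent.S27lib.Iface
import Fermat.Agent.S27lib.BR.Curve
import Fermat.Agent.S27lib.BR.FunField
import Fermat.Agent.S27lib.Belyi.StepA

set_option autoImplicit false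
set_option linter.style.haveILetI false
set_option linter.unusedSectionVars false

noncomputable section

namespace Fermat.Agent.S27lib.Tsig

open AlgebraicCurve IntermediateField Fermat.Agent.S18lib Fermat.Agent.S27lib
open Fermat.Agent.S27lib.BR

universe u v u' v'

/-- the count restricted to the function fields carrying a Belyi function (a covering function
with finite branch values in `{0, 1}`) -/
def BelyiCountAt (K : Type u) [Field K] (n g : ℕ) : Prop :=
  ∀ (F : Type v) [Field F] [Algebra K F] (x : F), Transcendental K x → FiniteDimensional K⟮x⟯ F →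
    IsCurveOfGenus K F g → (∃ β : F, Belyi.IsCov K β ∧ Belyi.BranchSet K β ⊆ {0, 1}) →
    Nat.card (Pic0.torsion K F n) = n ^ (2 * g)

theorem CountAt.belyiCountAt {K : Type u} [Field K] {n g : ℕ} (h : CountAt.{u, v} K n g) :
    BelyiCountAt.{u, v} K n g :=
  fun F _ _ x hx hfin hF _ => h F x hx hfin hF

section Semilinear

variable {K : Type u} {F : Type v} {K' : Type u'} {F' : Type v'} [Field K] [Field F]
  [Algebra K F] [Field K'] [Field F'] [Algebra K' F']
  (σ : K ≃+* K') (e : F ≃+* F') (comm : ∀ a : K, e (algebraMap K F a) = algebraMap K' F' (σ a))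

include comm in
/-- transport of the branch set along a semilinear isomorphism -/
theorem branchSet_map_subset (β : F) :
    Belyi.BranchSet K' (e β) ⊆ σ '' Belyi.BranchSet K β := by
  rintro a' ⟨P', hP'⟩
  refine ⟨σ.symm a', ?_, σ.apply_symm_apply a'⟩
  refine ⟨(Transport.placeEquiv σ e comm).symm P', ?_⟩
  have h1 : e (β - algebraMap K F (σ.symm a')) = e β - algebraMap K' F' a' := by
    rw [map_sub, comm, σ.apply_symm_apply]
  rw [← h1, ← Transport.ord_placeEquiv_symm σ e comm P'] at hP'
  exact hP'

include comm in
theorem isCov_map {β : F} (h : Belyi.IsCov K β) : Belyi.IsCov K' (e β) := by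
  haveI := h.finite
  exact ⟨Transport.transcendental_map σ e comm h.transcendental,
    Transport.finiteDimensional_map σ e comm β⟩

include comm in
/-- the Belyi hypothesis is transported -/
theorem exists_belyi_map (h : ∃ β : F, Belyi.IsCov K β ∧ Belyi.BranchSet K β ⊆ {0, 1}) :
    ∃ β' : F', Belyi.IsCov K' β' ∧ Belyi.BranchSet K' β' ⊆ {0, 1} := by
  obtain ⟨β, hβ, hbr⟩ := h
  refine ⟨e β, isCov_map σ e comm hβ, ?_⟩
  intro a' ha'
  obtain ⟨a, ha, rfl⟩ := branchSet_map_subset σ e comm β ha'
  rcases hbr ha with h0 | h1
  · left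
    rw [h0, map_zero]
  · right
    rw [Set.mem_singleton_iff] at h1 ⊢
    rw [h1, map_one]

end Semilinear

section Main

universe w

variable {K : Type u} {K' : Type u'} [Field K] [Field K']

/-- the function field `ULift F` over `K'`, for `F / K` and `σ : K ≃+* K'` -/
@[reducible] def liftAlgebra (σ : K ≃+* K') (F : Type v) [Field F] [Algebra K F] :
    Algebra K' (ULift.{w} F) :=
  (((ULift.ringEquiv.symm : F ≃+* ULift.{w} F) : F →+* ULift.{w} F).comp
    ((algebraMap K F).comp (σ.symm : K' →+* K))).toAlgebra

theorem liftAlgebra_comm (σ : K ≃+* K') (F : Type v) [Field F] [Algebra K F] (a : K) :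
    letI := liftAlgebra.{u, v, u', w} σ F
    (ULift.ringEquiv.symm : F ≃+* ULift.{w} F) (algebraMap K F a) =
      algebraMap K' (ULift.{w} F) (σ a) := by
  letI := liftAlgebra.{u, v, u', w} σ F
  show _ = (ULift.ringEquiv.symm : F ≃+* ULift.{w} F) (algebraMap K F (σ.symm (σ a)))
  rw [σ.symm_apply_apply]

/-- **(Tσ)** transport of `CountAt` along a ring isomorphism of the base fields (and a universe
lift of the function fields). -/
theorem countAt_of_ringEquiv (σ : K ≃+* K') {n g : ℕ}
    (h : CountAt.{u', max v w} K' n g) : CountAt.{u, v} K n g := by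
  intro F _ _ x hx hfin hF
  letI := liftAlgebra.{u, v, u', w} σ F
  have comm := liftAlgebra_comm.{u, v, u', w} σ F
  rw [Transport.card_torsion σ (ULift.ringEquiv.symm : F ≃+* ULift.{w} F) comm n]
  exact h (ULift.{w} F) _ (Transport.transcendental_map σ _ comm hx)
    (Transport.finiteDimensional_map σ _ comm x) (Transport.isCurveOfGenus σ _ comm hF)

/-- **(Tσ)** transport of `BelyiCountAt` along a ring isomorphism of the base fields. -/
theorem belyiCountAt_of_ringEquiv (σ : K ≃+* K') {n g : ℕ}
    (h : BelyiCountAt.{u', max v w} K' n g) : BelyiCountAt.{u, v} K n g := by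
  intro F _ _ x hx hfin hF hβ
  letI := liftAlgebra.{u, v, u', w} σ F
  have comm := liftAlgebra_comm.{u, v, u', w} σ F
  rw [Transport.card_torsion σ (ULift.ringEquiv.symm : F ≃+* ULift.{w} F) comm n]
  exact h (ULift.{w} F) _ (Transport.transcendental_map σ _ comm hx)
    (Transport.finiteDimensional_map σ _ comm x) (Transport.isCurveOfGenus σ _ comm hF)
    (exists_belyi_map σ _ comm hβ)

/-- same universe for the function fields -/
theorem countAt_of_ringEquiv' (σ : K ≃+* K') {n g : ℕ}
    (h : CountAt.{u', v} K' n g) : CountAt.{u, v} K n g :=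
  countAt_of_ringEquiv.{u, v, u', v} σ h

theorem belyiCountAt_of_ringEquiv' (σ : K ≃+* K') {n g : ℕ}
    (h : BelyiCountAt.{u', v} K' n g) : BelyiCountAt.{u, v} K n g :=
  belyiCountAt_of_ringEquiv.{u, v, u', v} σ h

/-- equalising universes: the count for `ULift K` (base field and function fields in one universe)
gives the count for `K` -/
theorem countAt_of_ulift {n g : ℕ}
    (h : CountAt.{max u v, max u v} (ULift.{max u v} K) n g) : CountAt.{u, v} K n g :=
  countAt_of_ringEquiv.{u, v, max u v, max u v} (ULift.ringEquiv.symm : K ≃+* ULift.{max u v} K) h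

theorem belyiCountAt_of_ulift {n g : ℕ}
    (h : BelyiCountAt.{max u v, max u v} (ULift.{max u v} K) n g) : BelyiCountAt.{u, v} K n g :=
  belyiCountAt_of_ringEquiv.{u, v, max u v, max u v}
    (ULift.ringEquiv.symm : K ≃+* ULift.{max u v} K) h

/-- the converse direction: the count for `K` gives the count for `ULift K` -/
theorem countAt_ulift {n g : ℕ} (h : CountAt.{u, max v w} K n g) :
    CountAt.{max u w, v} (ULift.{w} K) n g :=
  countAt_of_ringEquiv.{max u w, v, u, w} (ULift.ringEquiv : ULift.{w} K ≃+* K) h

end Main

end Fermat.Agent.S27lib.Tsig
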